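/-
S56 / FLAT-O leaves UNRHOM and TAMEFROB (helper486), verbatim targets of
`S56/H906/FlatOSpec.lean`:

* `unramHom : UnramHomStatement` — `D_P / I_P` is procyclic, generated by a Frobenius element:
  an unramified additive map `D_P → k` of finite level vanishing at a Frobenius vanishes.
* `tameFrob : TameFrobStatement` — a character `D_P → k^×` of finite level (`k` of
  characteristic `p`, `P ∣ p`) satisfies `a τ ^ p = a τ` on inertia.

Inputs (on main): `Lib/Cheb/H643/FrobAt.exists_isFrobeniusAt` (Frobenius at a given valuation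
subring of `ℚ̄`), `S56/H606/Gen.exists_frobenius_pow_mul_inertia` (generation modulo any finite
level), the tame character `A2/H708/Tame`, its Frobenius relation `S56/H794/TameFrob` and the
wild kernel `S56/H186/TameWild`.
-/
import Fermat.Agent.S56.H906.FlatOSpec
import Fermat.Agent.S56.H606.Gen
import Fermat.Agent.Lib.Cheb.H643.FrobAt
import Fermat.Agent.S56.H794.TameRat
import Fermat.Agent.S56.H186.TameWild

set_option autoImplicit false
set_option linter.style.haveILetI false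

namespace Fermat.Agent.S56.H486

open Fermat.Agent.S56 Fermat.Agent.S56.H906

/-- The inertia group (Prelude form) is contained in the decomposition group. -/
theorem flatO_inertia_le_decomposition (P : ValuationSubring Qb) {σ : GQ}
    (hσ : σ ∈ P.inertiaSubgroupIn ℚ) : σ ∈ P.decompositionSubgroup ℚ := by
  obtain ⟨τ, -, rfl⟩ := hσ
  exact τ.2

/-- An additive map on `D_P` vanishes at `1`. -/
theorem flatO_additive_one (P : ValuationSubring Qb) {k : Type} [Field k] (h : GQ → k)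
    (hadd : ∀ σ ∈ P.decompositionSubgroup ℚ, ∀ τ ∈ P.decompositionSubgroup ℚ,
      h (σ * τ) = h σ + h τ) : h 1 = 0 := by
  have h1 := hadd 1 (Subgroup.one_mem _) 1 (Subgroup.one_mem _)
  rw [mul_one] at h1
  exact left_eq_add.mp h1

/-- An additive map on `D_P` sends powers to multiples. -/
theorem flatO_additive_pow (P : ValuationSubring Qb) {k : Type} [Field k] (h : GQ → k)
    (hadd : ∀ σ ∈ P.decompositionSubgroup ℚ, ∀ τ ∈ P.decompositionSubgroup ℚ,
      h (σ * τ) = h σ + h τ) {φ : GQ} (hφ : φ ∈ P.decompositionSubgroup ℚ) (n : ℕ) :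
    h (φ ^ n) = n • h φ := by
  induction n with
  | zero => rw [pow_zero, zero_smul]; exact flatO_additive_one P h hadd
  | succ n ih =>
    rw [pow_succ, hadd _ (pow_mem hφ n) _ hφ, ih, succ_nsmul]

/-- **FLAT-O / UNRHOM.** -/
theorem unramHom : UnramHomStatement := by
  intro p hp P hP
  obtain ⟨φ, hφ⟩ := Fermat.Agent.Lib.Cheb.H643.exists_isFrobeniusAt p hp P hP
  have hφD : φ ∈ P.decompositionSubgroup ℚ := hφ.mem_decompositionSubgroup
  refine ⟨φ, hφD, ?_⟩
  intro k _ h hadd hlev hI hφ0 σ hσ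
  obtain ⟨L, hL, hlevL⟩ := hlev
  haveI : FiniteDimensional ℚ L := hL
  obtain ⟨n, ι, hι, hσL⟩ :=
    Fermat.Agent.S56.H606.exists_frobenius_pow_mul_inertia hp hP L hφ hσ
  have hιD : ι ∈ P.decompositionSubgroup ℚ := flatO_inertia_le_decomposition P hι
  have hgD : φ ^ n * ι ∈ P.decompositionSubgroup ℚ := Subgroup.mul_mem _ (pow_mem hφD n) hιD
  -- `τ := (φ ^ n * ι)⁻¹ * σ` lies in `D_P` and fixes `L`
  have hτD : (φ ^ n * ι)⁻¹ * σ ∈ P.decompositionSubgroup ℚ :=
    Subgroup.mul_mem _ (Subgroup.inv_mem _ hgD) hσ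
  have hτL : ∀ x ∈ L, ((φ ^ n * ι)⁻¹ * σ) x = x := by
    intro x hx
    show (φ ^ n * ι)⁻¹ (σ x) = x
    rw [hσL x hx]
    show ((φ ^ n * ι)⁻¹ * (φ ^ n * ι)) x = x
    rw [inv_mul_cancel]
    rfl
  have h1 : h σ = h (φ ^ n * ι) := by
    have := hlevL (φ ^ n * ι) hgD ((φ ^ n * ι)⁻¹ * σ) hτD hτL
    rwa [mul_inv_cancel_left] at this
  rw [h1, hadd _ (pow_mem hφD n) _ hιD, flatO_additive_pow P h hadd hφD, hφ0, hI ι hι,
    smul_zero, add_zero]

/-! ## TAMEFROB -/

/-- A character of `D_P` sends inverses to inverses. -/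
theorem flatO_char_inv (P : ValuationSubring Qb) {k : Type} [Field k] (a : GQ → k)
    (ha : IsLocChar P a) {σ : GQ} (hσ : σ ∈ P.decompositionSubgroup ℚ) :
    a σ⁻¹ = (a σ)⁻¹ := by
  have h1 := ha.map_mul σ hσ σ⁻¹ (Subgroup.inv_mem _ hσ)
  rw [mul_inv_cancel, ha.map_one] at h1
  exact eq_inv_of_mul_eq_one_right h1.symm

/-- A character of `D_P` sends powers to powers. -/
theorem flatO_char_pow (P : ValuationSubring Qb) {k : Type} [Field k] (a : GQ → k)
    (ha : IsLocChar P a) {σ : GQ} (hσ : σ ∈ P.decompositionSubgroup ℚ) (n : ℕ) :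
    a (σ ^ n) = a σ ^ n := by
  induction n with
  | zero => rw [pow_zero, pow_zero, ha.map_one]
  | succ n ih => rw [pow_succ, ha.map_mul _ (pow_mem hσ n) _ hσ, ih, pow_succ]

/-- Wild inertia is killed by characters with values in characteristic `p`: an element of the
inertia group at `P ∣ p` with trivial tame character is sent to `1`. -/
theorem flatO_char_eq_one_of_tame_trivial (p : ℕ) [Fact p.Prime] (k : Type) [Field k]
    [CharP k p] (P : ValuationSubring Qb) (hP : P.LiesOverPrime p) (a : GQ → k)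
    (ha : IsLocChar P a) {γ : GQ} (hγ : γ ∈ P.inertiaSubgroupIn ℚ)
    (htame : ∀ x : Qb, x ≠ 0 → P.valuation (γ x - x) < P.valuation x) : a γ = 1 := by
  have hp : p.Prime := Fact.out
  haveI : Algebra.IsAlgebraic ℚ Qb := AlgebraicClosure.isAlgebraic ℚ
  have hγD : γ ∈ P.decompositionSubgroup ℚ := flatO_inertia_le_decomposition P hγ
  obtain ⟨L, hL, hlev⟩ := ha.level
  haveI : FiniteDimensional ℚ L := hL
  -- the normal closure of the level
  haveI : IsGalois ℚ Qb := Fermat.Agent.S56.H794.isGalois_Qbar_h794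
  let E : IntermediateField ℚ Qb := IntermediateField.normalClosure ℚ L Qb
  have hLE : L ≤ E := IntermediateField.le_normalClosure L
  haveI : Normal ℚ E := normalClosure.normal ℚ L Qb
  haveI : FiniteDimensional ℚ E := normalClosure.is_finiteDimensional ℚ L Qb
  have hres : ∀ (σ : GQ) (y : E), σ (y : Qb) = ((AlgEquiv.restrictNormalHom E σ) y : Qb) :=
    fun σ y => (AlgEquiv.restrictNormal_commutes σ E y).symm
  have hE : ∀ y ∈ E, γ y ∈ E := fun y hy => by
    rw [hres γ ⟨y, hy⟩]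
    exact Subtype.mem _
  -- a positive power of `γ` is trivial on `E`
  let g : E ≃ₐ[ℚ] E := AlgEquiv.restrictNormalHom E γ
  have hn : orderOf g ≠ 0 := (orderOf_pos g).ne'
  have hfix : ∀ y ∈ E, (γ ^ orderOf g) y = y := fun y hy => by
    rw [hres (γ ^ orderOf g) ⟨y, hy⟩, map_pow, pow_orderOf_eq_one]
    rfl
  obtain ⟨e, he⟩ := Fermat.Agent.S56.H186.exists_pow_fixes_of_tame_trivial P hγD E hE
    (fun x _ hx => htame x hx) hp
    (fun ℓ hℓ hℓp => Fermat.Agent.S56.H794.valuation_prime_eq_one hp hP hℓ hℓp) hn hfix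
  -- hence `a γ ^ (p ^ e) = 1`
  have h1 : a (γ ^ p ^ e) = 1 := by
    have := hlev 1 (Subgroup.one_mem _) (γ ^ p ^ e) (pow_mem hγD _) (fun x hx => he x (hLE hx))
    rwa [one_mul, ha.map_one] at this
  rw [flatO_char_pow P a ha hγD] at h1
  -- and `x ^ (p ^ e) = 1` forces `x = 1` in characteristic `p`
  have h2 : (a γ - 1) ^ p ^ e = 0 := by
    rw [sub_pow_char_pow, h1, one_pow, sub_self]
  exact sub_eq_zero.mp (pow_eq_zero_iff (pow_ne_zero e hp.ne_zero) |>.mp h2)

/-- **FLAT-O / TAMEFROB.** -/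
theorem tameFrob : TameFrobStatement := by
  intro p _ k _ _ _ P hP a ha τ hτ
  have hp : p.Prime := Fact.out
  haveI : Algebra.IsAlgebraic ℚ Qb := AlgebraicClosure.isAlgebraic ℚ
  obtain ⟨φ, hφ⟩ := Fermat.Agent.Lib.Cheb.H643.exists_isFrobeniusAt p hp P hP
  have hφD : φ ∈ P.decompositionSubgroup ℚ := hφ.mem_decompositionSubgroup
  have hτD : τ ∈ P.decompositionSubgroup ℚ := flatO_inertia_le_decomposition P hτ
  have hc : φ * τ * φ⁻¹ ∈ P.inertiaSubgroupIn ℚ :=
    Fermat.Agent.S56.H794.conj_mem_inertiaIn P hφD hτ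
  have hγ : φ * τ * φ⁻¹ * (τ ^ p)⁻¹ ∈ P.inertiaSubgroupIn ℚ :=
    mul_mem hc (inv_mem (pow_mem hτ p))
  -- the tame character of `γ = φ τ φ⁻¹ τ⁻ᵖ` is trivial
  have htriv : ∀ c : Qbˣ, Fermat.Agent.A2.H708.tameHom P hγ c = 1 := by
    intro c
    rw [Fermat.Agent.A2.H708.tameHom_mul P hc (inv_mem (pow_mem hτ p)),
      Fermat.Agent.A2.H708.tameHom_inv P (pow_mem hτ p),
      Fermat.Agent.S56.H794.tameHom_pow P hτ,
      Fermat.Agent.S56.H794.tameHom_conj_frobenius P hφ hτ, mul_inv_cancel]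
  have h1 : a (φ * τ * φ⁻¹ * (τ ^ p)⁻¹) = 1 :=
    flatO_char_eq_one_of_tame_trivial p k P hP a ha hγ (fun x hx =>
      (Fermat.Agent.A2.H708.tameHom_eq_one_iff P hγ (Units.mk0 x hx)).mp (htriv _))
  -- expand with multiplicativity
  have hcD : φ * τ * φ⁻¹ ∈ P.decompositionSubgroup ℚ :=
    Subgroup.mul_mem _ (Subgroup.mul_mem _ hφD hτD) (Subgroup.inv_mem _ hφD)
  rw [ha.map_mul _ hcD _ (Subgroup.inv_mem _ (pow_mem hτD p)),
    ha.map_mul _ (Subgroup.mul_mem _ hφD hτD) _ (Subgroup.inv_mem _ hφD),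
    ha.map_mul _ hφD _ hτD, flatO_char_inv P a ha hφD, flatO_char_inv P a ha (pow_mem hτD p),
    flatO_char_pow P a ha hτD] at h1
  have hφ0 : a φ ≠ 0 := by
    intro h0
    have h2 := ha.map_mul φ hφD φ⁻¹ (Subgroup.inv_mem _ hφD)
    rw [mul_inv_cancel, ha.map_one, h0, zero_mul] at h2
    exact one_ne_zero h2
  have hτ0 : a τ ^ p ≠ 0 := by
    intro h0
    rw [h0, inv_zero, mul_zero] at h1
    exact zero_ne_one h1
  have h3 : a φ * a τ * (a φ)⁻¹ = a τ := by
    rw [mul_comm (a φ) (a τ), mul_assoc, mul_inv_cancel₀ hφ0, mul_one]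
  rw [h3] at h1
  exact (eq_of_mul_inv_eq_one h1).symm

end Fermat.Agent.S56.H486
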