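/-
S56 / W-BASE leaf T4 (helper486), part 1: multiplicativity of the characteristic polynomial
along an invariant submodule (Mathlib-only).
-/
import Mathlib

namespace Fermat.Agent.S56.H486

open Module

section

variable {R V : Type*} [CommRing R] [AddCommGroup V]
    [Module R V] [Module.Finite R V] [Module.Free R V]
    (W : Submodule R V) [Module.Free R W] [Module.Finite R W] [Module.Free R (V ⧸ W)]

open Module.Basis in
/-- The characteristic polynomial of an endomorphism preserving a submodule `W` is the product
of the characteristic polynomials of the restriction to `W` and of the induced map on `V ⧸ W`. -/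
theorem t4_charpoly_eq_restrict_mul_mapQ (e : V →ₗ[R] V) (he : W ≤ W.comap e) :
    e.charpoly = (e.restrict he).charpoly * (W.mapQ W e he).charpoly := by
  classical
  let m := Module.Free.ChooseBasisIndex R W
  let bW : Basis m R W := Module.Free.chooseBasis R W
  let n := Module.Free.ChooseBasisIndex R (V ⧸ W)
  let bQ : Basis n R (V ⧸ W) := Module.Free.chooseBasis R (V ⧸ W)
  let b := sumQuot bW bQ
  let A : Matrix m m R := LinearMap.toMatrix bW bW (e.restrict he)
  let B : Matrix m n R := Matrix.of fun i l ↦
    ((sumQuot bW bQ).repr (e ((sumQuot bW bQ) (Sum.inr l)))) (Sum.inl i)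
  let D : Matrix n n R := LinearMap.toMatrix bQ bQ (W.mapQ W e he)
  suffices LinearMap.toMatrix b b e = Matrix.fromBlocks A B 0 D by
    rw [← LinearMap.charpoly_toMatrix e b, this, ← LinearMap.charpoly_toMatrix (e.restrict he) bW,
      ← LinearMap.charpoly_toMatrix (W.mapQ W e he) bQ, Matrix.charpoly_fromBlocks_zero₂₁]
  ext u v
  cases u with
  | inl i =>
    cases v with
    | inl k =>
      simp only [b, sumQuot_inl, Matrix.fromBlocks_apply₁₁, A, LinearMap.toMatrix_apply]
      apply sumQuot_repr_inl_of_mem
    | inr l => simp [b, LinearMap.toMatrix_apply, Matrix.fromBlocks_apply₁₂, B]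
  | inr j =>
    cases v with
    | inl k =>
      suffices W.mkQ (e (bW k)) = 0 by simp [LinearMap.toMatrix_apply, b, this]
      rw [← LinearMap.mem_ker, Submodule.ker_mkQ]
      exact he (Submodule.coe_mem (bW k))
    | inr l =>
      simp only [LinearMap.toMatrix_apply, sumQuot_repr_inr,
        Matrix.fromBlocks_apply₂₂, b, D]
      rw [← sumQuot_inr bW bQ l, W.mapQ_apply]
      simp

end

section

variable {R M₁ M₂ : Type*} [CommRing R] [AddCommGroup M₁] [AddCommGroup M₂]
    [Module R M₁] [Module R M₂] [Module.Finite R M₁] [Module.Free R M₁]
    [Module.Finite R M₂] [Module.Free R M₂]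

/-- Equivariantly isomorphic endomorphisms have the same characteristic polynomial. -/
theorem t4_charpoly_eq_of_equiv (e : M₁ ≃ₗ[R] M₂) (φ : Module.End R M₁) (ψ : Module.End R M₂)
    (h : ∀ x, e (φ x) = ψ (e x)) : φ.charpoly = ψ.charpoly := by
  have : e.conj φ = ψ := by
    ext y
    simp [LinearEquiv.conj_apply, h]
  rw [← this, LinearEquiv.charpoly_conj]

end

section

variable {R M : Type*} [CommRing R] [AddCommGroup M] [Module R M]

/-- The characteristic polynomial of an endomorphism of a trivial module is `1`. -/
theorem t4_charpoly_of_subsingleton [Subsingleton M] (φ : Module.End R M) :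
    haveI : Module.Finite R M := Module.Finite.of_finite
    haveI : Module.Free R M := Module.Free.of_subsingleton R M
    φ.charpoly = 1 := by
  have : Module.Finite R M := Module.Finite.of_finite
  have : Module.Free R M := Module.Free.of_subsingleton R M
  nontriviality R
  have h1 : φ.charpoly.natDegree = 0 := by
    rw [LinearMap.charpoly_natDegree]
    exact Module.finrank_zero_of_subsingleton
  exact Polynomial.eq_one_of_monic_natDegree_zero (LinearMap.charpoly_monic φ) h1

end

end Fermat.Agent.S56.H486
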