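/-
S56 / FLAT-O leaf FT (helper486): `flatTame : FlatTameStatement` (verbatim target of
`S56/H906/FlatOSpec.lean`).

If inertia at `P ∣ p` acts on a nonzero point `x` of a flat module `M` killed by `p` (`p` odd)
through scalars, then it acts trivially or through the cyclotomic character.

Proof (blueprint `coord/S56-FLATO-helper906.md`, (FT)).  Let `M⁰` be the kernel of reduction.
* `x ∉ M⁰`: `τ x - x ∈ M⁰` for `τ` in inertia, and `M⁰` is stable under multiples, so the scalar
  is `1`.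
* `x ∈ M⁰`: the product over the inertia orbit of `x` of `f - f 0` is inertia-fixed, hence has
  valuation in `v(p)^ℤ` (UNR), so `v(f x - f 0)^(p-1) ≤ v(p)`; by Lemma (A) equality holds for
  a coordinate `f` of maximal valuation, i.e. `v(f x - f 0) = v(ζ - 1)`; Newton's expansion gives
  `f(n x) - f 0 ≡ n (f x - f 0)` modulo `(ζ - 1)²`, and comparing with
  `τ(w (ζ - 1)) ≡ a w (ζ - 1)` modulo `(ζ - 1) 𝔪_P` gives `n ≡ a` modulo `p`.

Inputs (on main): `H906.lemmaA` (+ its difference calculus), `H66.unrVal`,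
`S14/H894/Cyclo` (`v(p) = v(ζ - 1)^(p-1)`), `A2/H708/Tame` (inertia and valuations),
`S19/H435` (Hopf lattices).
-/
import Fermat.Agent.S56.H906.LemmaA
import Fermat.Agent.S56.H66.Unr
import Fermat.Agent.S14.H894.Cyclo
import Fermat.Agent.A2.H708.Tame

set_option autoImplicit false
set_option linter.style.haveILetI false
set_option linter.unusedSectionVars false

noncomputable section

namespace Fermat.Agent.S56.H486

open Fermat.Agent.S56 Fermat.Agent.S56.H906

section FT

variable {p : ℕ} [Fact p.Prime] {M : Type} [AddCommGroup M] {act : GQ → M → M}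
  {Λ : Subalgebra (Zp p) (M → Qb)} (P : ValuationSubring Qb)

/-- The Galois action of a Hopf lattice is compatible with multiples. -/
theorem ft_act_nsmul (hΛ : IsHL p act Λ) (σ : GQ) (n : ℕ) (x : M) :
    act σ (n • x) = n • act σ x := by
  induction n with
  | zero => rw [zero_smul, zero_smul]; exact Fermat.Agent.S19.H435.IsHopfLattice.act_zero hΛ σ
  | succ n ih =>
    rw [succ_nsmul, succ_nsmul, Fermat.Agent.S19.H435.IsHopfLattice.act_add hΛ, ih]

/-- The Galois action of a Hopf lattice is an action. -/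
theorem ft_act_mul (hΛ : IsHL p act Λ) (σ τ : GQ) (x : M) :
    act (σ * τ) x = act σ (act τ x) := by
  by_contra hne
  obtain ⟨f, hf, hfne⟩ := hΛ.separates _ _ hne
  apply hfne
  rw [hΛ.equivariant f hf (σ * τ), hΛ.equivariant f hf σ, hΛ.equivariant f hf τ]
  rfl

/-- The kernel of reduction, as a predicate. -/
def ftRed (Λ : Subalgebra (Zp p) (M → Qb)) (z : M) : Prop :=
  ∀ f ∈ Λ, P.valuation (f z - f 0) < 1

/-- The kernel of reduction is stable under addition. -/
theorem ftRed_add (hΛ : IsHL p act Λ) (hP : P.LiesOverPrime p) {z w : M}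
    (hz : ftRed P Λ z) (hw : ftRed P Λ w) : ftRed P Λ (z + w) := by
  intro f hf
  obtain ⟨n, a, b, ha, hb, hab⟩ := hΛ.comul_mem f hf
  have h0 := hab 0 0
  rw [add_zero] at h0
  have h1 : f (z + w) - f 0 =
      ∑ k, ((a k z - a k 0) * b k w + a k 0 * (b k w - b k 0)) := by
    rw [hab z w, h0, ← Finset.sum_sub_distrib]
    exact Finset.sum_congr rfl fun k _ => by ring
  rw [h1]
  refine Valuation.map_sum_lt _ one_ne_zero fun k _ => ?_
  refine lt_of_le_of_lt (Valuation.map_add _ _ _) (max_lt ?_ ?_)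
  · rw [map_mul]
    have hb1 : P.valuation (b k w) ≤ 1 :=
      (P.valuation_le_one_iff _).mpr (apply_mem P hΛ hP (hb k) w)
    calc P.valuation (a k z - a k 0) * P.valuation (b k w)
        ≤ P.valuation (a k z - a k 0) * 1 := by gcongr
      _ = P.valuation (a k z - a k 0) := mul_one _
      _ < 1 := hz _ (ha k)
  · rw [map_mul]
    have ha1 : P.valuation (a k 0) ≤ 1 :=
      (P.valuation_le_one_iff _).mpr (apply_mem P hΛ hP (ha k) 0)
    calc P.valuation (a k 0) * P.valuation (b k w - b k 0)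
        ≤ 1 * P.valuation (b k w - b k 0) := by gcongr
      _ = P.valuation (b k w - b k 0) := one_mul _
      _ < 1 := hw _ (hb k)

/-- The kernel of reduction is stable under multiples. -/
theorem ftRed_nsmul (hΛ : IsHL p act Λ) (hP : P.LiesOverPrime p) {z : M}
    (hz : ftRed P Λ z) (n : ℕ) : ftRed P Λ (n • z) := by
  induction n with
  | zero =>
    intro f _
    rw [zero_smul, sub_self, map_zero]
    exact zero_lt_one
  | succ n ih =>
    rw [succ_nsmul]
    exact ftRed_add P hΛ hP ih hz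

/-- Inertia acts trivially modulo the kernel of reduction. -/
theorem ftRed_act_sub (hΛ : IsHL p act Λ) (hP : P.LiesOverPrime p) {τ : GQ}
    (hτ : τ ∈ P.inertiaSubgroupIn ℚ) (x : M) : ftRed P Λ (act τ x - x) := by
  intro f hf
  obtain ⟨n, a, b, ha, hb, hab⟩ := hΛ.comul_mem f hf
  have h0 := hab x (-x)
  rw [add_neg_cancel] at h0
  have h1 : f (act τ x - x) - f 0 = ∑ k, (τ (a k x) - a k x) * b k (-x) := by
    rw [sub_eq_add_neg (act τ x) x, hab (act τ x) (-x), h0, ← Finset.sum_sub_distrib]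
    refine Finset.sum_congr rfl fun k _ => ?_
    rw [hΛ.equivariant _ (ha k) τ x]
    ring
  rw [h1]
  refine Valuation.map_sum_lt _ one_ne_zero fun k _ => ?_
  rw [map_mul]
  have hb1 : P.valuation (b k (-x)) ≤ 1 :=
    (P.valuation_le_one_iff _).mpr (apply_mem P hΛ hP (hb k) (-x))
  have ha1 : P.valuation (τ (a k x) - a k x) < 1 :=
    (ValuationSubring.mem_nonunits_iff (A := P)).mp
      (Fermat.Agent.A2.H708.sub_mem_nonunits_of_mem_inertiaIn P hτ (apply_mem P hΛ hP (ha k) x))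
  calc P.valuation (τ (a k x) - a k x) * P.valuation (b k (-x))
      ≤ P.valuation (τ (a k x) - a k x) * 1 := by gcongr
    _ = P.valuation (τ (a k x) - a k x) := mul_one _
    _ < 1 := ha1


/-- The identity acts trivially. -/
theorem ft_act_one (hΛ : IsHL p act Λ) (x : M) : act 1 x = x := by
  by_contra hne
  obtain ⟨f, hf, hfne⟩ := hΛ.separates _ _ hne
  apply hfne
  rw [hΛ.equivariant f hf 1]
  rfl

/-- Multiples of `x` only depend on the multiplier modulo `p`. -/
theorem ft_mod_nsmul {x : M} (hpx : p • x = 0) (n : ℕ) : (n % p) • x = n • x := by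
  conv_rhs => rw [← Nat.div_add_mod n p]
  rw [add_smul, mul_comm, mul_smul, hpx, smul_zero, zero_add]

/-- **Case `x ∉ M⁰`**: inertia fixes `x`. -/
theorem ft_case_one (hΛ : IsHL p act Λ) (hP : P.LiesOverPrime p) (hM : ∀ x : M, p • x = 0)
    {x : M} (hx : ¬ ftRed P Λ x) {τ : GQ} (hτ : τ ∈ P.inertiaSubgroupIn ℚ) {n : ℕ}
    (hn : act τ x = n • x) : act τ x = x := by
  by_contra hne
  apply hx
  letI : Module (ZMod p) M := AddCommGroup.zmodModule hM
  have hz := ftRed_act_sub P hΛ hP hτ x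
  set c : ZMod p := (n : ZMod p) - 1 with hc
  have hcx : act τ x - x = c • x := by
    rw [hn, hc, sub_smul, one_smul, Nat.cast_smul_eq_nsmul]
  have hc0 : c ≠ 0 := by
    intro h0
    apply hne
    rw [h0, zero_smul, sub_eq_zero] at hcx
    exact hcx
  have hx' : x = (c⁻¹).val • (act τ x - x) := by
    rw [hcx, ← Nat.cast_smul_eq_nsmul (ZMod p), ZMod.natCast_zmod_val, smul_smul,
      inv_mul_cancel₀ hc0, one_smul]
  rw [hx']
  exact ftRed_nsmul P hΛ hP hz _

/-- **Case `x ∈ M⁰`, step 1** (orbit product + UNR): `v(f x - f 0)^(p-1) ≤ v(p)`. -/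
theorem ft_pow_le (hU : UnrValStatement) [Finite M] (hΛ : IsHL p act Λ)
    (hP : P.LiesOverPrime p) (hM : ∀ x : M, p • x = 0) {x : M} (hx0 : x ≠ 0)
    (hx : ftRed P Λ x) (hsc : ∀ τ ∈ P.inertiaSubgroupIn ℚ, ∃ n : ℕ, act τ x = n • x)
    {f : M → Qb} (hf : f ∈ Λ) :
    P.valuation (f x - f 0) ^ (p - 1) ≤ P.valuation (p : Qb) := by
  classical
  have hp : p.Prime := Fact.out
  haveI : Fintype M := Fintype.ofFinite M
  haveI : Algebra.IsAlgebraic ℚ Qb := AlgebraicClosure.isAlgebraic ℚ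
  set y := f x - f 0 with hy
  by_cases hy0 : y = 0
  · rw [hy0, map_zero, zero_pow (by have := hp.two_le; omega)]
    exact zero_le
  -- the inertia orbit of `x`
  let S : Finset M := Finset.univ.filter (fun z => ∃ τ ∈ P.inertiaSubgroupIn ℚ, act τ x = z)
  have hS : ∀ z, z ∈ S ↔ ∃ τ ∈ P.inertiaSubgroupIn ℚ, act τ x = z := by
    intro z
    simp [S]
  have hxS : x ∈ S := (hS x).2 ⟨1, one_mem _, ft_act_one hΛ x⟩
  have hact : ∀ (σ : GQ) (z : M), f (act σ z) - f 0 = σ (f z - f 0) := by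
    intro σ z
    rw [map_sub, ← hΛ.equivariant f hf σ z, ← hΛ.equivariant f hf σ 0,
      Fermat.Agent.S19.H435.IsHopfLattice.act_zero hΛ σ]
  -- valuation of each factor
  have hval : ∀ z ∈ S, P.valuation (f z - f 0) = P.valuation y := by
    intro z hz
    obtain ⟨τ, hτ, rfl⟩ := (hS z).1 hz
    rw [hact τ x]
    exact Fermat.Agent.A2.H708.valuation_apply_of_mem_decomposition P
      (Fermat.Agent.A2.H708.mem_decomposition_of_mem_inertiaIn P hτ) y
  have hNv : P.valuation (∏ z ∈ S, (f z - f 0)) = P.valuation y ^ S.card := by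
    rw [map_prod, Finset.prod_congr rfl hval, Finset.prod_const]
  have hN0 : (∏ z ∈ S, (f z - f 0)) ≠ 0 := by
    rw [← Valuation.ne_zero_iff P.valuation, hNv]
    exact pow_ne_zero _ ((Valuation.ne_zero_iff _).mpr hy0)
  -- the product is fixed by inertia
  have hNfix : ∀ σ ∈ P.inertiaSubgroupIn ℚ, σ (∏ z ∈ S, (f z - f 0)) = ∏ z ∈ S, (f z - f 0) := by
    intro σ hσ
    rw [map_prod]
    refine Finset.prod_bij' (fun z _ => act σ z) (fun z _ => act σ⁻¹ z) ?_ ?_ ?_ ?_ ?_
    · intro z hz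
      obtain ⟨τ, hτ, rfl⟩ := (hS z).1 hz
      exact (hS _).2 ⟨σ * τ, mul_mem hσ hτ, ft_act_mul hΛ σ τ x⟩
    · intro z hz
      obtain ⟨τ, hτ, rfl⟩ := (hS z).1 hz
      exact (hS _).2 ⟨σ⁻¹ * τ, mul_mem (inv_mem hσ) hτ, ft_act_mul hΛ σ⁻¹ τ x⟩
    · intro z _
      exact Fermat.Agent.S19.H435.IsHopfLattice.act_inv_act hΛ σ z
    · intro z _
      exact Fermat.Agent.S19.H435.IsHopfLattice.act_act_inv hΛ σ z
    · intro z _
      exact (hact σ z).symm
  obtain ⟨m, hm⟩ := hU p hp P hP _ hN0 hNfix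
  have hvp : P.valuation (p : Qb) < 1 := (ValuationSubring.mem_nonunits_iff (A := P)).mp hP
  have hvp0 : P.valuation (p : Qb) ≠ 0 :=
    (Valuation.ne_zero_iff _).mpr (by exact_mod_cast hp.ne_zero)
  have hy1 : P.valuation y < 1 := hx f hf
  have hcard : 0 < S.card := Finset.card_pos.mpr ⟨x, hxS⟩
  have hN1 : P.valuation (∏ z ∈ S, (f z - f 0)) < 1 := by
    rw [hNv]
    exact pow_lt_one₀ zero_le hy1 hcard.ne'
  have hm1 : 1 ≤ m := by
    by_contra hcon
    have hm0 : m ≤ 0 := by omega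
    have h1 : 1 ≤ P.valuation (p : Qb) ^ m :=
      one_le_zpow_of_nonpos₀ (zero_lt_iff.mpr hvp0) hvp.le hm0
    rw [← hm] at h1
    exact absurd h1 (not_le.mpr hN1)
  have hNp : P.valuation (∏ z ∈ S, (f z - f 0)) ≤ P.valuation (p : Qb) := by
    rw [hm]
    calc P.valuation (p : Qb) ^ m ≤ P.valuation (p : Qb) ^ (1 : ℤ) :=
          zpow_le_zpow_right_of_le_one₀ (zero_lt_iff.mpr hvp0) hvp.le hm1
      _ = P.valuation (p : Qb) := zpow_one _
  -- the orbit has at most `p - 1` elements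
  have hScard : S.card ≤ p - 1 := by
    have hsub : S ⊆ (Finset.Ico 1 p).image (fun n : ℕ => n • x) := by
      intro z hz
      obtain ⟨τ, hτ, rfl⟩ := (hS z).1 hz
      obtain ⟨n, hn⟩ := hsc τ hτ
      rw [Finset.mem_image]
      refine ⟨n % p, ?_, ?_⟩
      · rw [Finset.mem_Ico]
        refine ⟨?_, Nat.mod_lt _ hp.pos⟩
        by_contra h0
        have h0' : n % p = 0 := by omega
        have h1 : act τ x = 0 := by
          rw [hn, ← ft_mod_nsmul (hM x) n, h0', zero_smul]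
        apply hx0
        have h2 := Fermat.Agent.S19.H435.IsHopfLattice.act_inv_act hΛ τ x
        rw [h1, Fermat.Agent.S19.H435.IsHopfLattice.act_zero hΛ] at h2
        exact h2.symm
      · show (n % p) • x = act τ x
        rw [hn, ft_mod_nsmul (hM x) n]
    calc S.card ≤ ((Finset.Ico 1 p).image (fun n : ℕ => n • x)).card := Finset.card_le_card hsub
      _ ≤ (Finset.Ico 1 p).card := Finset.card_image_le
      _ = p - 1 := Nat.card_Ico 1 p
  calc P.valuation y ^ (p - 1) ≤ P.valuation y ^ S.card :=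
        pow_le_pow_of_le_one zero_le hy1.le hScard
    _ = P.valuation (∏ z ∈ S, (f z - f 0)) := hNv.symm
    _ ≤ P.valuation (p : Qb) := hNp

/-- **Step 2**: a coordinate difference of maximal valuation. -/
theorem ft_exists_max (hΛ : IsHL p act Λ) (hP : P.LiesOverPrime p) {x : M} (hx0 : x ≠ 0) :
    ∃ f ∈ Λ, f x - f 0 ≠ 0 ∧
      ∀ g ∈ Λ, P.valuation (g x - g 0) ≤ P.valuation (f x - f 0) := by
  have hp : p.Prime := Fact.out
  obtain ⟨f₀, hf₀, hne⟩ := hΛ.separates x 0 hx0
  obtain ⟨n, e, he, -, -, hexp⟩ := Fermat.Agent.S19.H435.IsHopfLattice.exists_basis hΛ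
  have hcoord : ∀ g ∈ Λ, ∃ c : Fin n → Zp p,
      g x - g 0 = ∑ i, algebraMap (Zp p) Qb (c i) * (e i x - e i 0) := by
    intro g hg
    obtain ⟨c, hc⟩ := hexp g hg
    refine ⟨c, ?_⟩
    have h1 : ∀ y : M, g y = ∑ i, algebraMap (Zp p) Qb (c i) * e i y := by
      intro y
      rw [hc, Finset.sum_apply]
      refine Finset.sum_congr rfl fun i _ => ?_
      rw [Pi.smul_apply, Algebra.smul_def]
    rw [h1 x, h1 0, ← Finset.sum_sub_distrib]
    exact Finset.sum_congr rfl fun i _ => by ring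
  have hex : ∃ i, e i x - e i 0 ≠ 0 := by
    by_contra hcon
    push Not at hcon
    obtain ⟨c, hc⟩ := hcoord f₀ hf₀
    apply hne
    rw [← sub_eq_zero, hc]
    exact Finset.sum_eq_zero fun i _ => by rw [hcon i, mul_zero]
  obtain ⟨i₁, hi₁⟩ := hex
  obtain ⟨i₀, -, hi₀⟩ := Finset.exists_max_image Finset.univ
    (fun i => P.valuation (e i x - e i 0)) ⟨i₁, Finset.mem_univ _⟩
  refine ⟨e i₀, he i₀, ?_, ?_⟩
  · intro h0
    have h1 := hi₀ i₁ (Finset.mem_univ _)
    rw [h0, map_zero] at h1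
    exact hi₁ ((Valuation.zero_iff P.valuation).mp (le_antisymm h1 zero_le))
  · intro g hg
    obtain ⟨c, hc⟩ := hcoord g hg
    rw [hc]
    refine Valuation.map_sum_le _ fun i _ => ?_
    rw [map_mul]
    calc P.valuation (algebraMap (Zp p) Qb (c i)) * P.valuation (e i x - e i 0)
        ≤ 1 * P.valuation (e i x - e i 0) := by
          gcongr
          exact (ValuationSubring.valuation_le_one_iff P _).mpr (zp_mem P hp hP (c i))
      _ = P.valuation (e i x - e i 0) := one_mul _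
      _ ≤ P.valuation (e i₀ x - e i₀ 0) := hi₀ i (Finset.mem_univ _)

/-- **Step 3** (Newton, leading term): `f (n x) - f 0 ≡ n (f x - f 0)` modulo `μ²`. -/
theorem ft_leading (hΛ : IsHL p act Λ) (hP : P.LiesOverPrime p) {x : M} {f : M → Qb}
    (hf : f ∈ Λ) (μ : Qb) (hμ : μ ≠ 0) (hμ1 : P.valuation μ ≤ 1)
    (hle : ∀ g ∈ Λ, P.valuation (g x - g 0) ≤ P.valuation μ) (n : ℕ) :
    P.valuation (f (n • x) - f 0 - (n : Qb) * (f x - f 0)) ≤ P.valuation μ ^ 2 := by
  rcases Nat.eq_zero_or_pos n with rfl | hn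
  · rw [zero_smul, sub_self, Nat.cast_zero, zero_mul, sub_self, map_zero]
    exact zero_le
  obtain ⟨q, rfl⟩ : ∃ q, n = q + 1 := ⟨n - 1, by omega⟩
  have hN := sum_choose_delta x (q + 1) f
  rw [Finset.sum_range_succ', Finset.sum_range_succ'] at hN
  simp only [Nat.choose_zero_right, Nat.cast_one, pow_zero, Module.End.one_apply, one_mul,
    zero_add, Nat.choose_one_right, pow_one] at hN
  have hd1 : delta x f 0 = f x - f 0 := by rw [delta_apply, zero_add]
  rw [hd1] at hN
  have hsum : f ((q + 1) • x) - f 0 - ((q + 1 : ℕ) : Qb) * (f x - f 0) =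
      ∑ k ∈ Finset.range q,
        (((q + 1).choose (k + 1 + 1) : ℕ) : Qb) * (delta x ^ (k + 1 + 1)) f 0 := by
    rw [hN]
    ring
  rw [hsum]
  refine Valuation.map_sum_le _ fun k _ => ?_
  obtain ⟨G, hG, hG'⟩ := delta_pow_mem P hΛ x μ hμ hle (k + 1 + 1) (subset_pspan P hf)
  have hG0 : P.valuation (G 0) ≤ 1 :=
    (P.valuation_le_one_iff _).mpr (pspan_apply_mem P hΛ hP hG 0)
  have hc1 : P.valuation ((((q + 1).choose (k + 1 + 1) : ℕ) : Qb)) ≤ 1 :=
    (P.valuation_le_one_iff _).mpr (natCast_mem P _)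
  rw [hG', Pi.smul_apply, smul_eq_mul, map_mul, map_mul, map_pow]
  calc P.valuation ((((q + 1).choose (k + 1 + 1) : ℕ) : Qb)) *
        (P.valuation μ ^ (k + 1 + 1) * P.valuation (G 0))
      ≤ 1 * (P.valuation μ ^ (k + 1 + 1) * 1) := by gcongr
    _ = P.valuation μ ^ (k + 1 + 1) := by rw [one_mul, mul_one]
    _ ≤ P.valuation μ ^ 2 := pow_le_pow_of_le_one zero_le hμ1 (by omega)


/-- **Case `x ∈ M⁰`**: inertia acts on `x` through the cyclotomic character. -/
theorem ft_case_two (hU : UnrValStatement) (hA : LemmaAStatement) [Finite M]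
    (hΛ : IsHL p act Λ) (hP : P.LiesOverPrime p) (hM : ∀ x : M, p • x = 0) {x : M}
    (hx0 : x ≠ 0) (hx : ftRed P Λ x)
    (hsc : ∀ τ ∈ P.inertiaSubgroupIn ℚ, ∃ n : ℕ, act τ x = n • x)
    {τ : GQ} (hτ : τ ∈ P.inertiaSubgroupIn ℚ) {a : ℕ} (ha : IsCycExp p τ a) :
    act τ x = a • x := by
  have hp : p.Prime := Fact.out
  haveI : Algebra.IsAlgebraic ℚ Qb := AlgebraicClosure.isAlgebraic ℚ
  obtain ⟨n, hn⟩ := hsc τ hτ
  obtain ⟨f, hf, hy0, hmax⟩ := ft_exists_max P hΛ hP hx0
  -- `v(y)^(p-1) = v(p)` for `y = f x - f 0`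
  have hle : P.valuation (f x - f 0) ^ (p - 1) ≤ P.valuation (p : Qb) :=
    ft_pow_le P hU hΛ hP hM hx0 hx hsc hf
  have hge : P.valuation (p : Qb) ≤ P.valuation (f x - f 0) ^ (p - 1) := by
    by_contra hcon
    rw [not_le] at hcon
    exact hx0 (hA p M act Λ hΛ P hP x (f x - f 0) (hM x) hcon hmax)
  have heq : P.valuation (f x - f 0) ^ (p - 1) = P.valuation (p : Qb) := le_antisymm hle hge
  -- a primitive `p`-th root of unity
  obtain ⟨ζ, hζ⟩ := HasEnoughRootsOfUnity.exists_primitiveRoot Qb p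
  have hπ : P.valuation (p : Qb) = P.valuation (ζ - 1) ^ (p - 1) :=
    Fermat.Agent.S14.H894.valuation_natCast_eq_pow P p hp ζ hζ
  have hyπ : P.valuation (f x - f 0) = P.valuation (ζ - 1) :=
    (pow_left_inj₀ zero_le zero_le (by have := hp.two_le; omega)).mp (heq.trans hπ)
  have hπ1 : P.valuation (ζ - 1) < 1 :=
    Fermat.Agent.S14.H894.valuation_zeta_sub_one_lt_one P p hp hP ζ hζ
  have hπ0 : P.valuation (ζ - 1) ≠ 0 :=
    Fermat.Agent.S14.H894.valuation_zeta_sub_one_ne_zero P p hp ζ hζ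
  have hπne : ζ - 1 ≠ 0 := (Valuation.ne_zero_iff _).mp hπ0
  have hπpos : 0 < P.valuation (ζ - 1) := zero_lt_iff.mpr hπ0
  -- `τ y = f (n x) - f 0`
  have hτy : τ (f x - f 0) = f (n • x) - f 0 := by
    rw [map_sub, ← hΛ.equivariant f hf τ x, ← hΛ.equivariant f hf τ 0,
      Fermat.Agent.S19.H435.IsHopfLattice.act_zero hΛ τ, hn]
  -- (1) `τ y ≡ n y` modulo `π²`
  have h1 : P.valuation (τ (f x - f 0) - (n : Qb) * (f x - f 0)) ≤ P.valuation (ζ - 1) ^ 2 := by
    rw [hτy, ← hyπ]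
    exact ft_leading P hΛ hP hf (f x - f 0) hy0 (hx f hf).le hmax n
  -- (2) `τ y ≡ a y` modulo `π 𝔪`
  have hwv : P.valuation ((f x - f 0) / (ζ - 1)) = 1 := by
    rw [map_div₀, hyπ, div_self hπ0]
  have hwy : f x - f 0 = (f x - f 0) / (ζ - 1) * (ζ - 1) := by
    field_simp
  have hτζ : τ (ζ - 1) = ζ ^ a - 1 := by
    rw [map_sub, map_one, ha ζ hζ.pow_eq_one]
  have h2 : P.valuation (τ (f x - f 0) - (a : Qb) * (f x - f 0)) < P.valuation (ζ - 1) := by
    have hsplit : τ (f x - f 0) - (a : Qb) * (f x - f 0) =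
        (τ ((f x - f 0) / (ζ - 1)) - (f x - f 0) / (ζ - 1)) * (ζ ^ a - 1) +
          (f x - f 0) / (ζ - 1) * ((ζ ^ a - 1) - a * (ζ - 1)) := by
      have h := congrArg τ hwy
      rw [map_mul, hτζ] at h
      rw [h]
      field_simp
      ring
    rw [hsplit]
    refine lt_of_le_of_lt (Valuation.map_add _ _ _) (max_lt ?_ ?_)
    · rw [map_mul]
      have hw1 : P.valuation (τ ((f x - f 0) / (ζ - 1)) - (f x - f 0) / (ζ - 1)) < 1 :=
        Fermat.Agent.A2.H708.valuation_sub_lt_one_of_mem_inertiaIn P hτ hwv.le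
      have hz : P.valuation (ζ ^ a - 1) ≤ P.valuation (ζ - 1) :=
        Fermat.Agent.S14.H894.valuation_pow_sub_one_le P hp.ne_zero hζ.pow_eq_one a
      calc P.valuation (τ ((f x - f 0) / (ζ - 1)) - (f x - f 0) / (ζ - 1)) *
            P.valuation (ζ ^ a - 1)
          ≤ P.valuation (τ ((f x - f 0) / (ζ - 1)) - (f x - f 0) / (ζ - 1)) *
            P.valuation (ζ - 1) := by gcongr
        _ < 1 * P.valuation (ζ - 1) := mul_lt_mul_of_pos_right hw1 hπpos
        _ = P.valuation (ζ - 1) := one_mul _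
    · have hgeom : (ζ ^ a - 1) - a * (ζ - 1) =
          (ζ - 1) * ∑ j ∈ Finset.range a, (ζ ^ j - 1) := by
        have hg := geom_sum_mul ζ a
        rw [Finset.sum_sub_distrib, Finset.sum_const, Finset.card_range, nsmul_eq_mul, mul_one,
          ← hg]
        ring
      rw [hgeom, map_mul, map_mul, hwv, one_mul]
      have hs : P.valuation (∑ j ∈ Finset.range a, (ζ ^ j - 1)) < 1 := by
        refine Valuation.map_sum_lt _ one_ne_zero fun j _ => ?_
        exact lt_of_le_of_lt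
          (Fermat.Agent.S14.H894.valuation_pow_sub_one_le P hp.ne_zero hζ.pow_eq_one j) hπ1
      calc P.valuation (ζ - 1) * P.valuation (∑ j ∈ Finset.range a, (ζ ^ j - 1))
          < P.valuation (ζ - 1) * 1 := mul_lt_mul_of_pos_left hs hπpos
        _ = P.valuation (ζ - 1) := mul_one _
  -- combine: `(n - a) y ∈ π 𝔪`
  have h3 : P.valuation (((n : Qb) - (a : Qb)) * (f x - f 0)) < P.valuation (ζ - 1) := by
    have hsub : ((n : Qb) - (a : Qb)) * (f x - f 0) =
        (τ (f x - f 0) - (a : Qb) * (f x - f 0)) -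
          (τ (f x - f 0) - (n : Qb) * (f x - f 0)) := by ring
    rw [hsub]
    refine lt_of_le_of_lt (Valuation.map_sub _ _ _) (max_lt h2 (lt_of_le_of_lt h1 ?_))
    calc P.valuation (ζ - 1) ^ 2 = P.valuation (ζ - 1) * P.valuation (ζ - 1) := sq _
      _ < 1 * P.valuation (ζ - 1) := mul_lt_mul_of_pos_right hπ1 hπpos
      _ = P.valuation (ζ - 1) := one_mul _
  rw [map_mul, hyπ] at h3
  have h4 : P.valuation ((n : Qb) - (a : Qb)) < 1 := by
    by_contra hcon
    rw [not_lt] at hcon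
    have h5 : P.valuation (ζ - 1) ≤ P.valuation ((n : Qb) - a) * P.valuation (ζ - 1) := by
      calc P.valuation (ζ - 1) = 1 * P.valuation (ζ - 1) := (one_mul _).symm
        _ ≤ P.valuation ((n : Qb) - a) * P.valuation (ζ - 1) := by gcongr
    exact absurd h3 (not_lt.mpr h5)
  -- hence `p ∣ n - a`
  have h5 : (p : ℤ) ∣ (n : ℤ) - (a : ℤ) := by
    by_contra hcon
    have h6 := Fermat.Agent.S14.H894.valuation_intCast_eq_one P p hp hP ((n : ℤ) - a) hcon
    rw [Int.cast_sub, Int.cast_natCast, Int.cast_natCast] at h6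
    rw [h6] at h4
    exact lt_irrefl _ h4
  -- conclude
  rw [hn]
  have h6 : ((n : ℤ) - (a : ℤ)) • x = 0 := by
    obtain ⟨k, hk⟩ := h5
    rw [hk, mul_comm, mul_smul, natCast_zsmul, hM x, smul_zero]
  rw [sub_smul, natCast_zsmul, natCast_zsmul, sub_eq_zero] at h6
  exact h6

end FT

/-- **FLAT-O / FT**, from (UNR) and (A). -/
theorem flatTame_of (hU : UnrValStatement) (hA : LemmaAStatement) : FlatTameStatement := by
  intro p _ _ M _ _ act Λ hΛ hM P hP x hx0 hsc
  by_cases hx : ftRed P Λ x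
  · right
    intro τ hτ a ha
    exact ft_case_two P hU hA hΛ hP hM hx0 hx hsc hτ ha
  · left
    intro τ hτ
    obtain ⟨n, hn⟩ := hsc τ hτ
    exact ft_case_one P hΛ hP hM hx hτ hn

/-- **FLAT-O / FT.** -/
theorem flatTame : FlatTameStatement :=
  flatTame_of Fermat.Agent.S56.H66.unrVal lemmaA

end Fermat.Agent.S56.H486

end
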