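/-
S56 / GW-WALL route B, elementary leaf TW-INV (helper486), verbatim target of
`S56/H716/GWSpec3.lean`:

* `twInv : TWInvStatement` (TW-INV) — at a Taylor–Wiles prime `q`, `ρ̄(D_P)` consists of powers
  of `ρ̄(φ)` (`ρ̄` is unramified at `q`, generation by Frobenius `H606/Gen`), and
  `2 ρ̄(φ) - (α + β)` is a nonzero trace-zero endomorphism commuting with `ρ̄(φ)`.

(UR-COUNT is `H431.urCount`, on main.)
-/
import Fermat.Agent.S56.H716.GWSpec3
import Fermat.Agent.S56.H606.LocMin

set_option autoImplicit false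
set_option linter.style.haveILetI false

open Polynomial IsLocalRing

noncomputable section

namespace Fermat.Agent.S56.H486

open Fermat.Agent.S56 Fermat.Agent.S56.H716

section TWInv

variable {k : Type} [Field k] (ρbar : ResidualGaloisRep k)

/-- If `ρ̄` is unramified at `q`, the image of the decomposition group at `P ∣ q` consists of
powers of the image of a Frobenius element. -/
theorem gw_map_eq_frobenius_pow {q : ℕ} (hq : q.Prime) {P : ValuationSubring Qb}
    (hP : P.LiesOverPrime q) (hunr : ρbar.IsUnramifiedAt q) {φ : GQ}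
    (hφ : P.IsFrobeniusAt φ q) {σ : GQ} (hσ : σ ∈ P.decompositionSubgroup ℚ) :
    ∃ n : ℕ, ρbar.ρ σ = ρbar.ρ φ ^ n := by
  obtain ⟨L, hL, hlev⟩ := ρbar.factorsThroughFiniteLevel
  haveI : FiniteDimensional ℚ L := hL
  obtain ⟨n, ι, hι, hσL⟩ :=
    Fermat.Agent.S56.H606.exists_frobenius_pow_mul_inertia hq hP L hφ hσ
  refine ⟨n, ?_⟩
  have h1 : ρbar.ρ ((φ ^ n * ι)⁻¹ * σ) = 1 := by
    apply hlev
    intro x hx
    show (φ ^ n * ι)⁻¹ (σ x) = x
    rw [hσL x hx]
    show ((φ ^ n * ι)⁻¹ * (φ ^ n * ι)) x = x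
    rw [inv_mul_cancel]
    rfl
  have h2 : σ = (φ ^ n * ι) * ((φ ^ n * ι)⁻¹ * σ) := by rw [mul_inv_cancel_left]
  rw [h2, map_mul, h1, mul_one, map_mul, map_pow, hunr P hP ι hι, mul_one]

/-- A split endomorphism with distinct eigenvalues of a `2`-dimensional space gives a nonzero
trace-zero endomorphism `2 f - (α + β)`. -/
theorem gw_traceless_ne_zero (h2 : (2 : k) ≠ 0) (f : Module.End k ρbar.V) {α β : k}
    (hαβ : α ≠ β) (hchar : LinearMap.charpoly f = (X - C α) * (X - C β)) :
    LinearMap.trace k ρbar.V ((2 : k) • f - (α + β) • (1 : Module.End k ρbar.V)) = 0 ∧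
      (2 : k) • f - (α + β) • (1 : Module.End k ρbar.V) ≠ 0 := by
  have htr : LinearMap.trace k ρbar.V f = α + β := by
    have h1 : LinearMap.trace k ρbar.V f = -(LinearMap.charpoly f).nextCoeff := by
      rw [LinearMap.charpoly_def, ← Matrix.trace_eq_neg_charpoly_nextCoeff,
        ← LinearMap.trace_eq_matrix_trace]
    rw [h1, hchar, Monic.nextCoeff_mul (monic_X_sub_C α) (monic_X_sub_C β),
      nextCoeff_X_sub_C, nextCoeff_X_sub_C]
    ring
  have hone : LinearMap.trace k ρbar.V (1 : Module.End k ρbar.V) = 2 := by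
    rw [LinearMap.trace_one, ρbar.finrank_eq]
    norm_num
  refine ⟨?_, ?_⟩
  · rw [map_sub, map_smul, map_smul, htr, hone, smul_eq_mul, smul_eq_mul]
    ring
  · intro h0
    -- then `f` is the scalar `c = (α + β) / 2`
    have hf : f = ((α + β) / 2) • (1 : Module.End k ρbar.V) := by
      have h1 : (2 : k) • f = (α + β) • (1 : Module.End k ρbar.V) := sub_eq_zero.mp h0
      have h3 : f = (2 : k)⁻¹ • ((2 : k) • f) := by rw [smul_smul, inv_mul_cancel₀ h2, one_smul]
      rw [h3, h1, smul_smul, div_eq_inv_mul]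
    -- Cayley–Hamilton
    have hCH := LinearMap.aeval_self_charpoly f
    rw [hchar] at hCH
    simp only [map_mul, map_sub, aeval_X, aeval_C] at hCH
    rw [hf] at hCH
    have h4 : ((α + β) / 2 - α) * ((α + β) / 2 - β) = 0 := by
      have h5 : (((α + β) / 2) • (1 : Module.End k ρbar.V) - algebraMap k _ α) *
          (((α + β) / 2) • (1 : Module.End k ρbar.V) - algebraMap k _ β) =
          (((α + β) / 2 - α) * ((α + β) / 2 - β)) • (1 : Module.End k ρbar.V) := by
        rw [Algebra.algebraMap_eq_smul_one, Algebra.algebraMap_eq_smul_one, ← sub_smul,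
          ← sub_smul, smul_mul_smul_comm, mul_one]
      rw [h5] at hCH
      haveI : Nontrivial ρbar.V := Module.nontrivial_of_finrank_pos (R := k)
        (by rw [ρbar.finrank_eq]; norm_num)
      rcases smul_eq_zero.mp hCH with h | h
      · exact h
      · exact absurd h one_ne_zero
    rcases mul_eq_zero.mp h4 with h | h
    · apply hαβ
      field_simp at h
      linear_combination -h
    · apply hαβ
      field_simp at h
      linear_combination h

end TWInv

/-- **TW-INV.** -/
theorem twInv : TWInvStatement := by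
  intro 𝒪 _ _ _ _ _ p ρbar S Smin hyp q hq P hP
  obtain ⟨hqp, hqS, -, hfrob⟩ := hq
  obtain ⟨φ, hφ, -⟩ := Fermat.Agent.Lib.Cheb.H476.exists_frobenius_at q hqp P hP
  obtain ⟨α, β, hαβ, hchar⟩ := hfrob P hP φ hφ
  have hqne : q ≠ p := fun h => hqS (h ▸ hyp.hSmin hyp.hpSmin)
  have hqSmin : q ∉ Smin := fun h => hqS (hyp.hSmin h)
  have hunr : ρbar.IsUnramifiedAt q := by
    by_contra hcon
    exact hqSmin ((hyp.hmin q hqp hqne).mpr hcon)
  have h2 : (2 : ResidueField 𝒪) ≠ 0 :=
    Fermat.Agent.S56.H794.two_ne_zero_of_odd_char hyp.hp hyp.hp2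
      (Fermat.Agent.S56.H794.natCast_residueField_eq_zero_of_hyp hyp)
  obtain ⟨htr, hne⟩ := gw_traceless_ne_zero ρbar h2 (ρbar.ρ φ) hαβ hchar
  -- the element of `adInv`
  have hmem : (2 : ResidueField 𝒪) • ρbar.ρ φ - (α + β) • (1 : Module.End (ResidueField 𝒪) ρbar.V)
      ∈ adInv ρbar (P.decompositionSubgroup ℚ) := by
    refine ⟨htr, fun σ hσ => ?_⟩
    obtain ⟨n, hn⟩ := gw_map_eq_frobenius_pow ρbar hqp hP hunr hφ hσ
    have hcomm : Commute (ρbar.ρ σ)
        ((2 : ResidueField 𝒪) • ρbar.ρ φ - (α + β) • (1 : Module.End (ResidueField 𝒪) ρbar.V)) := by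
      rw [hn]
      refine Commute.sub_right ?_ ?_
      · exact ((Commute.refl (ρbar.ρ φ)).pow_left n).smul_right _
      · exact (Commute.one_right _).smul_right _
    have hinv : ρbar.ρ σ * ρbar.ρ σ⁻¹ = 1 := by
      rw [← map_mul, mul_inv_cancel, map_one]
    rw [hcomm.eq, mul_assoc, hinv, mul_one]
  rw [Nat.succ_le_iff, Module.finrank_pos_iff_exists_ne_zero]
  exact ⟨⟨_, hmem⟩, fun h => hne (congrArg Subtype.val h)⟩

end Fermat.Agent.S56.H486

end
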