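import Fermat.Agent.S56.Spec
import Fermat.Agent.S53.H596.PowerSeriesCNL

/-!
# Row S56 — piece P1 (helper486): `PowerSeriesSurjStatement`

A complete Noetherian local `𝒪`-algebra `R` with residue field `k` and at most `|k| ^ r` tangent
vectors `R →ₐ[𝒪] k[ε]` is a quotient of `𝒪⟦X₁,…,X_r⟧`.

Exact statement delivered (interface `Fermat/Agent/S56/Spec.lean`, verbatim):

    theorem powerSeriesSurjStatement : PowerSeriesSurjStatement

Proof.  Take a finite set `s ⊆ 𝔪_R` of minimal cardinality `m` with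
`𝔪_R ≤ 𝔪_𝒪 R ⊔ span s ⊔ 𝔪_R²`, and the surjection `γ : 𝒪⟦X₁..X_m⟧ ↠ R`, `X_i ↦ x_i` (landed S53
package).  For every `t : Fin m → k` the evaluation `ψ_t : 𝒪⟦X⟧ → k[ε]`, `X_i ↦ t_i ε` kills
`ker γ` (by minimality: an element of `ker γ` is `a + Σ g_i X_i` with `a ∈ 𝔪_𝒪 𝒪⟦X⟧` and no `g_i` a
unit), hence descends to a tangent vector `φ_t` of `R` with `φ_t x_i = t_i ε`.  So
`|k| ^ m ≤ #TanHom ≤ |k| ^ r`, `m ≤ r`, and we pad `x` by zeros.
-/

set_option autoImplicit false
set_option linter.unusedSectionVars false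
set_option linter.style.haveILetI false

namespace Fermat.Agent.S56.H486

open IsLocalRing Fermat.Agent.S53.H596

section Dual

variable (k : Type) [Field k]

/-- `ε` lies in the maximal ideal of the dual numbers. -/
theorem smul_eps_mem_maximalIdeal (t : k) :
    t • (DualNumber.eps : DualNumber k) ∈ maximalIdeal (DualNumber k) := by
  rw [DualNumber.maximalIdeal_eq_span_singleton_eps, Ideal.mem_span_singleton]
  refine ⟨algebraMap k (DualNumber k) t, ?_⟩
  rw [mul_comm, Algebra.smul_def]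

/-- The product of two elements of the maximal ideal of the dual numbers vanishes. -/
theorem mul_eq_zero_of_mem_maximalIdeal {a b : DualNumber k}
    (ha : a ∈ maximalIdeal (DualNumber k)) (hb : b ∈ maximalIdeal (DualNumber k)) :
    a * b = 0 := by
  rw [DualNumber.maximalIdeal_eq_span_singleton_eps, Ideal.mem_span_singleton] at ha hb
  obtain ⟨a', rfl⟩ := ha
  obtain ⟨b', rfl⟩ := hb
  calc DualNumber.eps * a' * (DualNumber.eps * b')
      = (DualNumber.eps * DualNumber.eps) * (a' * b') := by ring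
    _ = 0 := by rw [DualNumber.eps_mul_eps, zero_mul]

/-- The dual numbers over a field are an Artinian ring. -/
theorem isArtinianRing_dualNumber486 : IsArtinianRing (DualNumber k) := by
  have : Module.Finite k (DualNumber k) := inferInstanceAs (Module.Finite k (k × k))
  exact IsArtinianRing.of_finite k (DualNumber k)

/-- The dual numbers over a field are complete for their maximal ideal. -/
theorem isAdicComplete_dualNumber486 :
    IsAdicComplete (maximalIdeal (DualNumber k)) (DualNumber k) :=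
  haveI := isArtinianRing_dualNumber486 k
  inferInstance

end Dual

section Main

variable (𝒪 : Type) [CommRing 𝒪] [IsDomain 𝒪] [IsDiscreteValuationRing 𝒪]
  [IsAdicComplete (maximalIdeal 𝒪) 𝒪]
  (R : Type) [CommRing R] [IsLocalRing R] [IsNoetherianRing R]
  [IsAdicComplete (maximalIdeal R) R] [Algebra 𝒪 R] [IsLocalHom (algebraMap 𝒪 R)]

/-- `s ⊆ 𝔪_R` generates `𝔪_R` modulo `𝔪_𝒪 R + 𝔪_R²`. -/
def Gen (s : Finset R) : Prop :=
  (∀ x ∈ s, x ∈ maximalIdeal R) ∧
    maximalIdeal R ≤ Ideal.map (algebraMap 𝒪 R) (maximalIdeal 𝒪) ⊔ Ideal.span (s : Set R) ⊔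
      maximalIdeal R ^ 2

theorem exists_gen : ∃ s : Finset R, Gen 𝒪 R s := by
  obtain ⟨s, hs⟩ := (maximalIdeal R).fg_of_isNoetherianRing
  refine ⟨s, fun x hx => ?_, ?_⟩
  · rw [← hs]
    exact Ideal.subset_span hx
  · intro y hy
    rw [← hs] at hy
    exact Ideal.mem_sup_left (Ideal.mem_sup_right hy)

/-- The evaluation `ψ_t : 𝒪⟦X⟧ → k[ε]`, `X_i ↦ t_i ε`. -/
noncomputable def psi {m : ℕ} (t : Fin m → ResidueField 𝒪) :
    @AlgHom 𝒪 (MvPowerSeries (Fin m) 𝒪) (DualNumber (ResidueField 𝒪)) _ _ _ _ (tanAlgebra 𝒪) :=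
  letI := tanAlgebra 𝒪
  haveI := isAdicComplete_dualNumber486 (ResidueField 𝒪)
  evalCNL (R := 𝒪) (maximalIdeal (DualNumber (ResidueField 𝒪)))
    (fun i => t i • (DualNumber.eps : DualNumber (ResidueField 𝒪)))
    (fun i => smul_eps_mem_maximalIdeal (ResidueField 𝒪) (t i))

theorem psi_X {m : ℕ} (t : Fin m → ResidueField 𝒪) (i : Fin m) :
    psi 𝒪 t (MvPowerSeries.X i) = t i • (DualNumber.eps : DualNumber (ResidueField 𝒪)) := by
  letI := tanAlgebra 𝒪
  haveI := isAdicComplete_dualNumber486 (ResidueField 𝒪)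
  exact evalCNL_X (R := 𝒪) (maximalIdeal (DualNumber (ResidueField 𝒪))) _ _ i

/-- `ψ_t` maps the maximal ideal into the maximal ideal. -/
theorem psi_mem_maximalIdeal {m : ℕ} (t : Fin m → ResidueField 𝒪)
    {f : MvPowerSeries (Fin m) 𝒪} (hf : f ∈ maximalIdeal (MvPowerSeries (Fin m) 𝒪)) :
    psi 𝒪 t f ∈ maximalIdeal (DualNumber (ResidueField 𝒪)) := by
  letI := tanAlgebra 𝒪
  rw [mem_maximalIdeal, mem_nonunits_iff]
  intro hu
  rw [maximalIdeal_mvPowerSeries_eq_sup] at hf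
  have hle : Ideal.map (MvPowerSeries.C (σ := Fin m) (R := 𝒪)) (maximalIdeal 𝒪) ⊔
      Ideal.span (Set.range (MvPowerSeries.X : Fin m → MvPowerSeries (Fin m) 𝒪)) ≤
      Ideal.comap (psi 𝒪 t : MvPowerSeries (Fin m) 𝒪 →+* DualNumber (ResidueField 𝒪))
        (maximalIdeal (DualNumber (ResidueField 𝒪))) := by
    refine sup_le ?_ ?_
    · rw [Ideal.map_le_iff_le_comap]
      intro c hc
      rw [Ideal.mem_comap, Ideal.mem_comap]
      have h1 : (psi 𝒪 t : MvPowerSeries (Fin m) 𝒪 →+* DualNumber (ResidueField 𝒪))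
          (MvPowerSeries.C c) = algebraMap 𝒪 (DualNumber (ResidueField 𝒪)) c := by
        rw [MvPowerSeries.c_eq_algebraMap]
        exact (psi 𝒪 t).commutes c
      rw [h1]
      have h2 : algebraMap 𝒪 (DualNumber (ResidueField 𝒪)) c =
          algebraMap (ResidueField 𝒪) (DualNumber (ResidueField 𝒪)) (residue 𝒪 c) := rfl
      rw [h2, (residue_eq_zero_iff c).mpr hc, map_zero]
      exact Ideal.zero_mem _
    · rw [Ideal.span_le]
      rintro _ ⟨i, rfl⟩
      rw [SetLike.mem_coe, Ideal.mem_comap]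
      have := psi_X 𝒪 t i
      rw [RingHom.coe_coe, this]
      exact smul_eps_mem_maximalIdeal _ _
  have := hle hf
  rw [Ideal.mem_comap, mem_maximalIdeal, mem_nonunits_iff] at this
  exact this hu

/-- `ψ_t` kills `𝔪_𝒪 𝒪⟦X⟧`. -/
theorem psi_eq_zero_of_mem_map_C {m : ℕ} (t : Fin m → ResidueField 𝒪)
    {a : MvPowerSeries (Fin m) 𝒪}
    (ha : a ∈ Ideal.map (MvPowerSeries.C (σ := Fin m) (R := 𝒪)) (maximalIdeal 𝒪)) :
    psi 𝒪 t a = 0 := by
  letI := tanAlgebra 𝒪
  have hle : Ideal.map (MvPowerSeries.C (σ := Fin m) (R := 𝒪)) (maximalIdeal 𝒪) ≤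
      RingHom.ker (psi 𝒪 t : MvPowerSeries (Fin m) 𝒪 →+* DualNumber (ResidueField 𝒪)) := by
    rw [Ideal.map_le_iff_le_comap]
    intro c hc
    rw [Ideal.mem_comap, RingHom.mem_ker]
    have h1 : (psi 𝒪 t : MvPowerSeries (Fin m) 𝒪 →+* DualNumber (ResidueField 𝒪))
        (MvPowerSeries.C c) = algebraMap 𝒪 (DualNumber (ResidueField 𝒪)) c := by
      rw [MvPowerSeries.c_eq_algebraMap]
      exact (psi 𝒪 t).commutes c
    rw [h1]
    have h2 : algebraMap 𝒪 (DualNumber (ResidueField 𝒪)) c =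
        algebraMap (ResidueField 𝒪) (DualNumber (ResidueField 𝒪)) (residue 𝒪 c) := rfl
    rw [h2, (residue_eq_zero_iff c).mpr hc, map_zero]
  exact (RingHom.mem_ker).mp (hle ha)

/-- Any `𝒪`-algebra map `γ : 𝒪⟦X⟧ → R` maps `𝔪_𝒪 𝒪⟦X⟧` into `𝔪_𝒪 R`. -/
theorem map_mem_of_mem_map_C {m : ℕ} (γ : MvPowerSeries (Fin m) 𝒪 →ₐ[𝒪] R)
    {a : MvPowerSeries (Fin m) 𝒪}
    (ha : a ∈ Ideal.map (MvPowerSeries.C (σ := Fin m) (R := 𝒪)) (maximalIdeal 𝒪)) :
    γ a ∈ Ideal.map (algebraMap 𝒪 R) (maximalIdeal 𝒪) := by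
  have hle : Ideal.map (MvPowerSeries.C (σ := Fin m) (R := 𝒪)) (maximalIdeal 𝒪) ≤
      Ideal.comap (γ : MvPowerSeries (Fin m) 𝒪 →+* R)
        (Ideal.map (algebraMap 𝒪 R) (maximalIdeal 𝒪)) := by
    rw [Ideal.map_le_iff_le_comap]
    intro c hc
    rw [Ideal.mem_comap, Ideal.mem_comap]
    have h1 : (γ : MvPowerSeries (Fin m) 𝒪 →+* R) (MvPowerSeries.C c) = algebraMap 𝒪 R c := by
      rw [MvPowerSeries.c_eq_algebraMap]
      exact γ.commutes c
    rw [h1]
    exact Ideal.mem_map_of_mem _ hc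
  exact hle ha

/-- Key step: for a generating set of minimal cardinality, `ψ_t` kills the kernel of `γ`. -/
theorem psi_eq_zero_of_min {m : ℕ} (s : Finset R) (hs : Gen 𝒪 R s)
    (hmin : ∀ s' : Finset R, Gen 𝒪 R s' → s.card ≤ s'.card)
    (x : Fin m → R) (hxs : ∀ i, x i ∈ s) (hxinj : Function.Injective x)
    (γ : MvPowerSeries (Fin m) 𝒪 →ₐ[𝒪] R) (hγ : ∀ i, γ (MvPowerSeries.X i) = x i)
    (t : Fin m → ResidueField 𝒪) (f : MvPowerSeries (Fin m) 𝒪) (hf : γ f = 0) :
    psi 𝒪 t f = 0 := by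
  classical
  letI := tanAlgebra 𝒪
  -- `f` is not a unit
  have hfm : f ∈ maximalIdeal (MvPowerSeries (Fin m) 𝒪) := by
    rw [mem_maximalIdeal, mem_nonunits_iff]
    intro hu
    have := hu.map γ
    rw [hf] at this
    exact not_isUnit_zero this
  rw [maximalIdeal_mvPowerSeries_eq_sup, Submodule.mem_sup] at hfm
  obtain ⟨a, ha, b, hb, hab⟩ := hfm
  obtain ⟨g, hg⟩ := (Ideal.mem_span_range_iff_exists_fun).mp hb
  -- no `g j` is a unit
  have hgm : ∀ j, g j ∈ maximalIdeal (MvPowerSeries (Fin m) 𝒪) := by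
    intro j
    rw [mem_maximalIdeal, mem_nonunits_iff]
    intro hu
    have hu' : IsUnit (γ (g j)) := hu.map γ
    -- the relation in `R`
    have hrel : γ a + ∑ i, γ (g i) * x i = 0 := by
      have : γ f = γ a + ∑ i, γ (g i) * x i := by
        rw [← hab, ← hg, map_add, map_sum]
        congr 1
        refine Finset.sum_congr rfl fun i _ => ?_
        rw [map_mul, hγ]
      rw [← this, hf]
    have hsplit : ∑ i, γ (g i) * x i =
        γ (g j) * x j + ∑ i ∈ Finset.univ.erase j, γ (g i) * x i := by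
      exact (Finset.add_sum_erase Finset.univ (fun i => γ (g i) * x i) (Finset.mem_univ j)).symm
    -- `x j` lies in `𝔪_𝒪 R ⊔ span (s.erase (x j))`
    have hxj : x j ∈ Ideal.map (algebraMap 𝒪 R) (maximalIdeal 𝒪) ⊔
        Ideal.span ((s.erase (x j) : Finset R) : Set R) := by
      obtain ⟨u, hu⟩ := hu'
      have h1 : γ (g j) * x j = -(γ a + ∑ i ∈ Finset.univ.erase j, γ (g i) * x i) := by
        rw [hsplit] at hrel
        linear_combination hrel
      have h2 : x j = ↑u⁻¹ * (-(γ a + ∑ i ∈ Finset.univ.erase j, γ (g i) * x i)) := by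
        rw [← h1, ← hu, ← mul_assoc, Units.inv_mul, one_mul]
      have hmem : ↑u⁻¹ * (-(γ a + ∑ i ∈ Finset.univ.erase j, γ (g i) * x i)) ∈
          Ideal.map (algebraMap 𝒪 R) (maximalIdeal 𝒪) ⊔
            Ideal.span ((s.erase (x j) : Finset R) : Set R) := by
        refine Ideal.mul_mem_left _ _ (neg_mem (Ideal.add_mem _ ?_ ?_))
        · exact Ideal.mem_sup_left (map_mem_of_mem_map_C 𝒪 R γ ha)
        · refine Ideal.sum_mem _ fun i hi => ?_
          refine Ideal.mem_sup_right (Ideal.mul_mem_left _ _ (Ideal.subset_span ?_))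
          rw [Finset.mem_coe, Finset.mem_erase]
          exact ⟨fun h => (Finset.mem_erase.mp hi).1 (hxinj h), hxs i⟩
      rwa [← h2] at hmem
    -- hence `s.erase (x j)` generates
    have hgen' : Gen 𝒪 R (s.erase (x j)) := by
      refine ⟨fun y hy => hs.1 y (Finset.mem_of_mem_erase hy), ?_⟩
      refine hs.2.trans (sup_le (sup_le ?_ ?_) le_sup_right)
      · exact le_sup_of_le_left le_sup_left
      · rw [Ideal.span_le]
        intro y hy
        by_cases hyj : y = x j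
        · rw [hyj]
          exact Ideal.mem_sup_left hxj
        · exact Ideal.mem_sup_left (Ideal.mem_sup_right
            (Ideal.subset_span (Finset.mem_coe.mpr (Finset.mem_erase.mpr ⟨hyj, hy⟩))))
    have h3 := hmin _ hgen'
    have h4 : (s.erase (x j)).card < s.card := Finset.card_erase_lt_of_mem (hxs j)
    omega
  -- conclusion
  rw [← hab, ← hg, map_add, map_sum, psi_eq_zero_of_mem_map_C 𝒪 t ha, zero_add]
  refine Finset.sum_eq_zero fun i _ => ?_
  rw [map_mul, psi_X]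
  exact mul_eq_zero_of_mem_maximalIdeal _ (psi_mem_maximalIdeal 𝒪 t (hgm i))
    (smul_eps_mem_maximalIdeal _ _)

end Main

open Fermat.Agent.S56 in
/-- **P1**: at most `|k| ^ r` tangent vectors ⇒ quotient of `𝒪⟦X₁,…,X_r⟧`. -/
theorem powerSeriesSurjStatement : PowerSeriesSurjStatement := by
  classical
  intro 𝒪 _ _ _ _ _ R _ _ _ _ _ _ hres r hfin hcard
  letI := tanAlgebra 𝒪
  -- a generating set of minimal cardinality
  have hex : ∃ n : ℕ, ∃ s : Finset R, Gen 𝒪 R s ∧ s.card = n := by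
    obtain ⟨s, hs⟩ := exists_gen 𝒪 R
    exact ⟨s.card, s, hs, rfl⟩
  obtain ⟨s, hs, hsm⟩ := Nat.find_spec hex
  have hmin : ∀ s' : Finset R, Gen 𝒪 R s' → s.card ≤ s'.card := by
    intro s' hs'
    rw [hsm]
    exact Nat.find_min' hex ⟨s', hs', rfl⟩
  -- enumerate `s`
  set m : ℕ := s.card with hm
  let e : Fin m ≃ s := s.equivFin.symm
  let x : Fin m → R := fun i => (e i : R)
  have hxs : ∀ i, x i ∈ s := fun i => (e i).2
  have hxinj : Function.Injective x := fun i j h => e.injective (Subtype.ext h)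
  have hrange : (s : Set R) ⊆ Set.range x := by
    intro y hy
    exact ⟨e.symm ⟨y, hy⟩, by simp [x]⟩
  have hxm : ∀ i, x i ∈ maximalIdeal R := fun i => hs.1 _ (hxs i)
  have hgen : maximalIdeal R ≤ Ideal.map (algebraMap 𝒪 R) (maximalIdeal 𝒪) ⊔
      Ideal.span (Set.range x) ⊔ maximalIdeal R ^ 2 :=
    hs.2.trans (sup_le_sup_right (sup_le_sup_left (Ideal.span_mono hrange) _) _)
  obtain ⟨γ, hγsurj, hγX⟩ :=
    exists_surjective_algHom_of_generators_mod_sq (R := 𝒪) (A := R) inferInstance hres x hxm hgen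
  -- the tangent vectors `φ_t`
  have hker : ∀ t : Fin m → ResidueField 𝒪,
      RingHom.ker (γ : MvPowerSeries (Fin m) 𝒪 →+* R) ≤
        RingHom.ker (psi 𝒪 t : MvPowerSeries (Fin m) 𝒪 →+* DualNumber (ResidueField 𝒪)) := by
    intro t f hf
    rw [RingHom.mem_ker] at hf ⊢
    exact psi_eq_zero_of_min 𝒪 R s hs hmin x hxs hxinj γ hγX t f hf
  let φ : (Fin m → ResidueField 𝒪) → TanHom 𝒪 R := fun t =>
    AlgHom.liftOfSurjective γ hγsurj (psi 𝒪 t) (hker t)
  have hφ : ∀ t i, φ t (x i) = t i • (DualNumber.eps : DualNumber (ResidueField 𝒪)) := by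
    intro t i
    rw [← hγX i]
    exact (AlgHom.liftOfSurjective_apply γ hγsurj (psi 𝒪 t) (hker t) _).trans (psi_X 𝒪 t i)
  have hφinj : Function.Injective φ := by
    intro t t' h
    funext i
    have h1 := hφ t i
    rw [h, hφ t' i] at h1
    have h2 := congrArg TrivSqZeroExt.snd h1
    simpa using h2.symm
  -- counting
  have hcard1 : Nat.card (Fin m → ResidueField 𝒪) ≤ Nat.card (TanHom 𝒪 R) :=
    Nat.card_le_card_of_injective φ hφinj
  have hcard2 : Nat.card (Fin m → ResidueField 𝒪) = Nat.card (ResidueField 𝒪) ^ m := by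
    rw [Nat.card_fun, Nat.card_fin]
  have hk : 1 < Nat.card (ResidueField 𝒪) := Finite.one_lt_card
  have hmr : m ≤ r := by
    have : Nat.card (ResidueField 𝒪) ^ m ≤ Nat.card (ResidueField 𝒪) ^ r :=
      hcard2 ▸ hcard1.trans hcard
    exact (Nat.pow_le_pow_iff_right hk).mp this
  -- pad by zeros
  let x' : Fin r → R := fun i => if h : (i : ℕ) < m then x ⟨i, h⟩ else 0
  have hx'm : ∀ i, x' i ∈ maximalIdeal R := by
    intro i
    simp only [x']
    split_ifs with h
    · exact hxm _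
    · exact Ideal.zero_mem _
  have hrange' : Set.range x ⊆ Set.range x' := by
    rintro _ ⟨i, rfl⟩
    refine ⟨⟨i, lt_of_lt_of_le i.2 hmr⟩, ?_⟩
    simp only [x']
    rw [dif_pos i.2]
  have hgen' : maximalIdeal R ≤ Ideal.map (algebraMap 𝒪 R) (maximalIdeal 𝒪) ⊔
      Ideal.span (Set.range x') ⊔ maximalIdeal R ^ 2 :=
    hgen.trans (sup_le_sup_right (sup_le_sup_left (Ideal.span_mono hrange') _) _)
  obtain ⟨γ', hγ'surj, -⟩ :=
    exists_surjective_algHom_of_generators_mod_sq (R := 𝒪) (A := R) inferInstance hres x' hx'm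
      hgen'
  exact ⟨γ', hγ'surj⟩

end Fermat.Agent.S56.H486
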