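/-
S56 / W-BASE leaf T4 (helper486): for a finite abelian group `A` with an endomorphism `g`,
the characteristic polynomials of `g` on `A[p]` and on `A / pA` coincide (Mathlib-only).

The `p`-torsion and the `p`-cotorsion are presented abstractly: `V₁` (resp. `V₂`) is any finite
`ZMod p`-module with an injection `ι : V₁ →+ A` whose range is `A[p]` (resp. a surjection
`π : A →+ V₂` whose kernel is `pA`), so that the consumer can plug in whatever model is at hand.
-/
import Fermat.Agent.S56.H486.T4Charpoly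

namespace Fermat.Agent.S56.H486

open Module

universe u v w

/-- Induction engine for `t4_charpoly_torsion_eq_cotorsion` (strong induction on `Nat.card A`). -/
theorem t4_charpoly_torsion_eq_cotorsion_aux (p : ℕ) [Fact p.Prime] (n : ℕ) :
    ∀ (A : Type u) [AddCommGroup A] [Finite A]
      (V₁ : Type v) [AddCommGroup V₁] [Module (ZMod p) V₁] [Finite V₁]
      (V₂ : Type w) [AddCommGroup V₂] [Module (ZMod p) V₂] [Finite V₂]
      (g : A →+ A) (g₁ : V₁ →ₗ[ZMod p] V₁) (g₂ : V₂ →ₗ[ZMod p] V₂)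
      (ι : V₁ →+ A) (π : A →+ V₂),
      Nat.card A = n →
      Function.Injective ι → (∀ a, a ∈ ι.range ↔ p • a = 0) →
      Function.Surjective π → (∀ a, π a = 0 ↔ ∃ b, a = p • b) →
      (∀ v, ι (g₁ v) = g (ι v)) → (∀ a, π (g a) = g₂ (π a)) →
      g₁.charpoly = g₂.charpoly := by
  induction n using Nat.strong_induction_on with
  | _ n ih =>
  intro A _ _ V₁ _ _ _ V₂ _ _ _ g g₁ g₂ ι π hcard hι hιr hπ hπk hg₁ hg₂
  let pm : A →+ A := nsmulAddMonoidHom p
  have hpm : ∀ a, pm a = p • a := fun a => rfl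
  let B : AddSubgroup A := pm.range
  have hBmem : ∀ a, a ∈ B ↔ ∃ b, a = p • b := fun a =>
    ⟨fun ⟨b, hb⟩ => ⟨b, hb.symm⟩, fun ⟨b, hb⟩ => ⟨b, hb.symm⟩⟩
  by_cases hB : B = ⊤
  · -- multiplication by `p` is bijective: both sides are trivial
    have hsurj : Function.Surjective pm := AddMonoidHom.range_eq_top.mp hB
    have hinj : Function.Injective pm := Finite.injective_iff_surjective.mpr hsurj
    have h1 : Subsingleton V₁ := ⟨fun x y => hι (hinj (by
      have hx : p • ι x = 0 := (hιr _).1 ⟨x, rfl⟩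
      have hy : p • ι y = 0 := (hιr _).1 ⟨y, rfl⟩
      rw [hpm, hpm, hx, hy]))⟩
    have h0 : ∀ x : V₂, x = 0 := fun x => by
      obtain ⟨a, rfl⟩ := hπ x
      obtain ⟨c, hc⟩ := hsurj a
      exact (hπk a).2 ⟨c, hc.symm⟩
    have h2 : Subsingleton V₂ := ⟨fun x y => by rw [h0 x, h0 y]⟩
    rw [t4_charpoly_of_subsingleton g₁, t4_charpoly_of_subsingleton g₂]
  · -- `B = pA` is a proper subgroup
    have hlt : Nat.card B < n := by
      rw [← hcard]
      refine lt_of_le_of_ne (Nat.card_le_card_of_injective _ Subtype.val_injective) ?_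
      exact fun h => hB ((AddSubgroup.card_eq_iff_eq_top B).1 h)
    let L : V₁ →ₗ[ZMod p] V₂ := (π.comp ι).toZModLinearMap p
    have hL : ∀ v, L v = π (ι v) := fun v => rfl
    let K : Submodule (ZMod p) V₁ := LinearMap.ker L
    let W : Submodule (ZMod p) V₂ := LinearMap.range L
    have hKmem : ∀ v, v ∈ K ↔ π (ι v) = 0 := fun v => Iff.rfl
    have hWmem : ∀ x, x ∈ W ↔ ∃ v, π (ι v) = x := fun x => Iff.rfl
    have hK : K ≤ K.comap g₁ := by
      intro v hv
      rw [Submodule.mem_comap, hKmem, hg₁, hg₂, (hKmem v).1 hv, map_zero]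
    have hW : W ≤ W.comap g₂ := by
      rintro _ ⟨v, rfl⟩
      exact ⟨g₁ v, by rw [hL, hL, hg₁, hg₂]⟩
    -- the two filtrations
    have e1 := t4_charpoly_eq_restrict_mul_mapQ K g₁ hK
    have e2 := t4_charpoly_eq_restrict_mul_mapQ W g₂ hW
    -- `V₁ / K ≃ W`, equivariantly
    have e3 : (K.mapQ K g₁ hK).charpoly = (g₂.restrict hW).charpoly :=
      t4_charpoly_eq_of_equiv L.quotKerEquivRange _ _ (by
        intro x
        obtain ⟨v, rfl⟩ := Submodule.mkQ_surjective _ x
        apply Subtype.ext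
        rw [Submodule.mkQ_apply, Submodule.mapQ_apply, LinearMap.quotKerEquivRange_apply_mk,
          LinearMap.coe_restrict_apply, LinearMap.quotKerEquivRange_apply_mk, hL, hL, hg₁, hg₂])
    -- the induction hypothesis for `B`, `K`, `V₂ ⧸ W`
    let g' : B →+ B := (g.comp B.subtype).codRestrict B (fun b => by
      obtain ⟨a, ha⟩ := (hBmem _).1 b.2
      exact (hBmem _).2 ⟨g a, by
        rw [AddMonoidHom.comp_apply, AddSubgroup.coe_subtype, ha, map_nsmul]⟩)
    have hg' : ∀ b : B, (g' b : A) = g b := fun b => rfl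
    let ι' : K →+ B := (ι.comp K.subtype.toAddMonoidHom).codRestrict B (fun v =>
      (hBmem _).2 ((hπk _).1 ((hKmem _).1 v.2)))
    have hι' : ∀ v : K, (ι' v : A) = ι v := fun v => rfl
    let φ : A →+ V₂ ⧸ W := (W.mkQ.toAddMonoidHom).comp π
    have hφ' : ∀ a, φ a = W.mkQ (π a) := fun a => rfl
    have hφ : pm.ker ≤ φ.ker := by
      intro a ha
      obtain ⟨v, rfl⟩ := (hιr a).2 ha
      rw [AddMonoidHom.mem_ker, hφ', Submodule.mkQ_apply, Submodule.Quotient.mk_eq_zero]
      exact ⟨v, rfl⟩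
    let π' : B →+ V₂ ⧸ W := (QuotientAddGroup.lift pm.ker φ hφ).comp
      (QuotientAddGroup.quotientKerEquivRange pm).symm.toAddMonoidHom
    have hπ' : ∀ (a : A) (ha : p • a ∈ B), π' ⟨p • a, ha⟩ = W.mkQ (π a) := by
      intro a ha
      have h1 : (QuotientAddGroup.quotientKerEquivRange pm).symm ⟨p • a, ha⟩ =
          (QuotientAddGroup.mk a : A ⧸ pm.ker) := by
        rw [AddEquiv.symm_apply_eq]
        rfl
      show QuotientAddGroup.lift pm.ker φ hφ
        ((QuotientAddGroup.quotientKerEquivRange pm).symm ⟨p • a, ha⟩) = _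
      rw [h1, QuotientAddGroup.lift_mk, hφ']
    have hBrep : ∀ b : B, ∃ (a : A) (ha : p • a ∈ B), b = ⟨p • a, ha⟩ := fun b => by
      obtain ⟨a, ha⟩ := (hBmem _).1 b.2
      exact ⟨a, (hBmem _).2 ⟨a, rfl⟩, Subtype.ext ha⟩
    have : Finite (V₂ ⧸ W) := Finite.of_surjective _ (Submodule.mkQ_surjective W)
    have e4 : (g₁.restrict hK).charpoly = (W.mapQ W g₂ hW).charpoly := by
      refine ih (Nat.card B) hlt B K (V₂ ⧸ W) g' (g₁.restrict hK) (W.mapQ W g₂ hW) ι' π' rfl
        ?_ ?_ ?_ ?_ ?_ ?_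
      · -- injectivity of `ι'`
        intro x y hxy
        exact Subtype.ext (hι (congrArg Subtype.val hxy))
      · -- range of `ι'` is `B[p]`
        intro b
        constructor
        · rintro ⟨v, rfl⟩
          apply Subtype.ext
          rw [AddSubgroup.coe_nsmul, hι', AddSubgroup.coe_zero]
          exact (hιr _).1 ⟨v, rfl⟩
        · intro hb
          have hb' : p • (b : A) = 0 := by
            rw [← AddSubgroup.coe_nsmul, hb, AddSubgroup.coe_zero]
          obtain ⟨v, hv⟩ := (hιr _).2 hb'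
          have hvK : v ∈ K := by
            rw [hKmem, hv]
            exact (hπk _).2 ((hBmem _).1 b.2)
          exact ⟨⟨v, hvK⟩, Subtype.ext hv⟩
      · -- surjectivity of `π'`
        intro x
        obtain ⟨y, rfl⟩ := Submodule.mkQ_surjective _ x
        obtain ⟨a, rfl⟩ := hπ y
        exact ⟨⟨p • a, (hBmem _).2 ⟨a, rfl⟩⟩, hπ' a _⟩
      · -- kernel of `π'` is `pB`
        intro b
        obtain ⟨a, ha, rfl⟩ := hBrep b
        rw [hπ', Submodule.mkQ_apply, Submodule.Quotient.mk_eq_zero, hWmem]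
        constructor
        · rintro ⟨v, hv⟩
          have h0 : π (a - ι v) = 0 := by rw [map_sub, hv, sub_self]
          obtain ⟨c, hc⟩ := (hπk _).1 h0
          refine ⟨⟨p • c, (hBmem _).2 ⟨c, rfl⟩⟩, Subtype.ext ?_⟩
          rw [AddSubgroup.coe_nsmul]
          show p • a = p • (p • c)
          have hv0 : p • ι v = 0 := (hιr _).1 ⟨v, rfl⟩
          rw [← hc, smul_sub, hv0, sub_zero]
        · rintro ⟨b', hb'⟩
          obtain ⟨c, hc, rfl⟩ := hBrep b'
          have h1 : p • a = p • (p • c) := by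
            have := congrArg Subtype.val hb'
            rwa [AddSubgroup.coe_nsmul] at this
          have h2 : p • (a - p • c) = 0 := by rw [smul_sub, h1, sub_self]
          obtain ⟨v, hv⟩ := (hιr _).2 h2
          refine ⟨v, ?_⟩
          rw [hv, map_sub, (hπk (p • c)).2 ⟨c, rfl⟩, sub_zero]
      · -- equivariance of `ι'`
        intro v
        apply Subtype.ext
        rw [hι', hg', hι', LinearMap.coe_restrict_apply, hg₁]
      · -- equivariance of `π'`
        intro b
        obtain ⟨a, ha, rfl⟩ := hBrep b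
        have h1 : g' ⟨p • a, ha⟩ = ⟨p • g a, (hBmem _).2 ⟨g a, rfl⟩⟩ :=
          Subtype.ext (by rw [hg']; exact map_nsmul g p a)
        rw [h1, hπ', hπ', hg₂, Submodule.mkQ_apply, Submodule.mkQ_apply, Submodule.mapQ_apply]
    rw [e1, e2, e3, e4, mul_comm]

/-- **T4.** Let `A` be a finite abelian group with an endomorphism `g`, let `V₁` be (a model of)
its `p`-torsion `A[p]` and `V₂` (a model of) its `p`-cotorsion `A / pA`, with the induced
endomorphisms `g₁`, `g₂`.  Then `g₁` and `g₂` have the same characteristic polynomial. -/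
theorem t4_charpoly_torsion_eq_cotorsion (p : ℕ) [Fact p.Prime]
    {A : Type u} [AddCommGroup A] [Finite A]
    {V₁ : Type v} [AddCommGroup V₁] [Module (ZMod p) V₁] [Finite V₁]
    {V₂ : Type w} [AddCommGroup V₂] [Module (ZMod p) V₂] [Finite V₂]
    (g : A →+ A) (g₁ : V₁ →ₗ[ZMod p] V₁) (g₂ : V₂ →ₗ[ZMod p] V₂)
    (ι : V₁ →+ A) (π : A →+ V₂)
    (hι : Function.Injective ι) (hιr : ∀ a, a ∈ ι.range ↔ p • a = 0)
    (hπ : Function.Surjective π) (hπk : ∀ a, π a = 0 ↔ ∃ b, a = p • b)
    (hg₁ : ∀ v, ι (g₁ v) = g (ι v)) (hg₂ : ∀ a, π (g a) = g₂ (π a)) :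
    g₁.charpoly = g₂.charpoly :=
  t4_charpoly_torsion_eq_cotorsion_aux p (Nat.card A) A V₁ V₂ g g₁ g₂ ι π rfl hι hιr hπ hπk hg₁ hg₂

/-- Consequence of **T4**: `A[p]` and `A / pA` have the same dimension over `ZMod p`. -/
theorem t4_finrank_torsion_eq_cotorsion (p : ℕ) [Fact p.Prime]
    {A : Type u} [AddCommGroup A] [Finite A]
    {V₁ : Type v} [AddCommGroup V₁] [Module (ZMod p) V₁] [Finite V₁]
    {V₂ : Type w} [AddCommGroup V₂] [Module (ZMod p) V₂] [Finite V₂]
    (ι : V₁ →+ A) (π : A →+ V₂)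
    (hι : Function.Injective ι) (hιr : ∀ a, a ∈ ι.range ↔ p • a = 0)
    (hπ : Function.Surjective π) (hπk : ∀ a, π a = 0 ↔ ∃ b, a = p • b) :
    Module.finrank (ZMod p) V₁ = Module.finrank (ZMod p) V₂ := by
  have h := t4_charpoly_torsion_eq_cotorsion p (AddMonoidHom.id A) (LinearMap.id : V₁ →ₗ[ZMod p] V₁)
    (LinearMap.id : V₂ →ₗ[ZMod p] V₂) ι π hι hιr hπ hπk (fun _ => rfl) (fun _ => rfl)
  have := congrArg Polynomial.natDegree h
  rwa [LinearMap.charpoly_natDegree, LinearMap.charpoly_natDegree] at this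

end Fermat.Agent.S56.H486
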